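/-
S52, step (C), E-independent part (helper42).

A Weierstrass curve whose reduction modulo a prime `l ∉ {2, 3}` has `c₆ = 0`, `c₄ ≠ 0`
(so `j = 1728` in the fibre) and such that `3` is not a square modulo `l` has a `3`-division
polynomial without rational roots; hence (by `S51.Galois.rational_root_of_not_irreducible_three`)
its mod-`3` representation is irreducible.

* `psi3_short_eq` : `ψ₃` of the short model at `X = 36 x + 3 b₂` is `36 ^ 4 * ψ₃ W x`.
* `sq_identity` : `(3 X ^ 2 + 3 A) ^ 2 = 3 * 36 ^ 4 * ψ₃ W x + 1944 * c₆ * X + 12 * A ^ 2`,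
  `A = -27 c₄`.
* `psi3_ne_zero_of_c6_eq_zero` : over a field in which `2, 3 ≠ 0` and `3` is not a square, a curve
  with `c₆ = 0`, `c₄ ≠ 0` has a rootless `ψ₃`.
* `psi3_map_rat_ne_zero` : the statement over `ℤ → ℚ`.
* `modRepIsIrreducible_three` : the irreducibility criterion.
* `not_isSquare_three_of_neg_one_of_neg_three` : `-1` a square and `-3` a non-square imply that
  `3` is a non-square (this is the shape delivered by the Chebotarev step).
-/
import Mathlib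
import Fermat.Prelude.Def_FLTPrelim_ModularRep
import Fermat.Agent.S51.GaloisDescent

set_option autoImplicit false

open WeierstrassCurve

namespace Fermat.Agent.S52.C42.Psi3J1728

open Fermat.Agent.S51

/-- `ψ₃` of the short Weierstrass model `y² = x³ - 27 c₄ x - 54 c₆`, evaluated at
`X = 36 x + 3 b₂`, equals `36 ^ 4 * ψ₃ W x`. -/
theorem psi3_short_eq {F : Type*} [CommRing F] (W : WeierstrassCurve F) (x : F) :
    3 * (36 * x + 3 * W.b₂) ^ 4 + 6 * (-27 * W.c₄) * (36 * x + 3 * W.b₂) ^ 2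
      + 12 * (-54 * W.c₆) * (36 * x + 3 * W.b₂) - (-27 * W.c₄) ^ 2 = 36 ^ 4 * psi3 W x := by
  unfold psi3
  simp only [WeierstrassCurve.c₄, WeierstrassCurve.c₆, WeierstrassCurve.b₈, WeierstrassCurve.b₆,
    WeierstrassCurve.b₄, WeierstrassCurve.b₂]
  ring

/-- The square identity behind the criterion. -/
theorem sq_identity {F : Type*} [CommRing F] (W : WeierstrassCurve F) (x : F) :
    (3 * (36 * x + 3 * W.b₂) ^ 2 + 3 * (-27 * W.c₄)) ^ 2 =
      3 * 36 ^ 4 * psi3 W x + 1944 * W.c₆ * (36 * x + 3 * W.b₂) + 12 * (-27 * W.c₄) ^ 2 := by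
  have h := psi3_short_eq W x
  linear_combination 3 * h

/-- Over a field in which `2` and `3` are invertible and `3` is not a square, a Weierstrass
curve with `c₆ = 0` and `c₄ ≠ 0` has a `3`-division polynomial without roots. -/
theorem psi3_ne_zero_of_c6_eq_zero {F : Type*} [Field F] (W : WeierstrassCurve F)
    (h2 : (2 : F) ≠ 0) (h3 : (3 : F) ≠ 0) (hsq : ¬ IsSquare (3 : F))
    (hc6 : W.c₆ = 0) (hc4 : W.c₄ ≠ 0) (x : F) : psi3 W x ≠ 0 := by
  intro hx
  have h := sq_identity W x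
  rw [hx, hc6] at h
  have hA : (2 : F) * (-27 * W.c₄) ≠ 0 := by
    have h27 : (27 : F) ≠ 0 := by
      have : (27 : F) = 3 ^ 3 := by norm_num
      rw [this]
      exact pow_ne_zero 3 h3
    refine mul_ne_zero h2 (mul_ne_zero ?_ hc4)
    exact neg_ne_zero.mpr h27
  apply hsq
  refine ⟨(3 * (36 * x + 3 * W.b₂) ^ 2 + 3 * (-27 * W.c₄)) / (2 * (-27 * W.c₄)), ?_⟩
  rw [div_mul_div_comm, eq_div_iff (mul_ne_zero hA hA)]
  linear_combination -h

/-- `-1` a square and `-3` a non-square imply that `3` is a non-square. -/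
theorem not_isSquare_three_of_neg_one_of_neg_three {F : Type*} [CommRing F]
    (h1 : IsSquare (-1 : F)) (h3 : ¬ IsSquare (-3 : F)) : ¬ IsSquare (3 : F) := by
  rintro ⟨a, ha⟩
  obtain ⟨b, hb⟩ := h1
  exact h3 ⟨a * b, by linear_combination (b * b) * ha + 3 * hb⟩

section Rat

variable (W : WeierstrassCurve ℤ) {l : ℕ}

/-- the integral form of a rational root of `ψ₃`. -/
theorem int_root_of_rat_root {x : ℚ} (hx : psi3 (W.map (Int.castRingHom ℚ)) x = 0) :
    3 * x.num ^ 4 + W.b₂ * x.num ^ 3 * x.den + 3 * W.b₄ * x.num ^ 2 * (x.den : ℤ) ^ 2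
      + 3 * W.b₆ * x.num * (x.den : ℤ) ^ 3 + W.b₈ * (x.den : ℤ) ^ 4 = 0 := by
  have hd : (x.den : ℚ) ≠ 0 := by exact_mod_cast x.den_nz
  have hxe : x = (x.num : ℚ) / (x.den : ℚ) := (Rat.num_div_den x).symm
  have hb2 : (W.map (Int.castRingHom ℚ)).b₂ = (W.b₂ : ℚ) := by
    rw [WeierstrassCurve.map_b₂]; rfl
  have hb4 : (W.map (Int.castRingHom ℚ)).b₄ = (W.b₄ : ℚ) := by
    rw [WeierstrassCurve.map_b₄]; rfl
  have hb6 : (W.map (Int.castRingHom ℚ)).b₆ = (W.b₆ : ℚ) := by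
    rw [WeierstrassCurve.map_b₆]; rfl
  have hb8 : (W.map (Int.castRingHom ℚ)).b₈ = (W.b₈ : ℚ) := by
    rw [WeierstrassCurve.map_b₈]; rfl
  unfold psi3 at hx
  rw [hb2, hb4, hb6, hb8] at hx
  have key : ((3 * x.num ^ 4 + W.b₂ * x.num ^ 3 * x.den + 3 * W.b₄ * x.num ^ 2 * (x.den : ℤ) ^ 2
      + 3 * W.b₆ * x.num * (x.den : ℤ) ^ 3 + W.b₈ * (x.den : ℤ) ^ 4 : ℤ) : ℚ) = 0 := by
    push_cast
    have hnum : (x.num : ℚ) = x * x.den := (Rat.mul_den_eq_num x).symm
    rw [hnum]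
    linear_combination (x.den : ℚ) ^ 4 * hx
  exact_mod_cast key

/-- If `l ∉ {2, 3}` is a prime with `l ∣ c₆(W)`, `l ∤ c₄(W)` and `3` is not a square modulo `l`,
then `ψ₃(W)` has no rational root. -/
theorem psi3_map_rat_ne_zero (hl : l.Prime) (hl2 : l ≠ 2) (hl3 : l ≠ 3)
    (hc6 : (l : ℤ) ∣ W.c₆) (hc4 : ¬ (l : ℤ) ∣ W.c₄) (hsq : ¬ IsSquare (3 : ZMod l)) (x : ℚ) :
    psi3 (W.map (Int.castRingHom ℚ)) x ≠ 0 := by
  intro hx
  have : Fact l.Prime := ⟨hl⟩
  have hint := int_root_of_rat_root W hx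
  -- the denominator is prime to `l`
  have h3l : ((3 : ℕ) : ZMod l) ≠ 0 := by
    intro h
    rw [ZMod.natCast_eq_zero_iff] at h
    exact hl3 ((Nat.prime_dvd_prime_iff_eq hl Nat.prime_three).mp h)
  have h2l : ((2 : ℕ) : ZMod l) ≠ 0 := by
    intro h
    rw [ZMod.natCast_eq_zero_iff] at h
    exact hl2 ((Nat.prime_dvd_prime_iff_eq hl Nat.prime_two).mp h)
  have hden : ((x.den : ℤ) : ZMod l) ≠ 0 := by
    intro hd
    have hdl : (l : ℤ) ∣ (x.den : ℤ) := (ZMod.intCast_zmod_eq_zero_iff_dvd _ l).mp hd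
    -- then `l ∣ 3 * num ^ 4`
    have h1 : (l : ℤ) ∣ 3 * x.num ^ 4 := by
      have : 3 * x.num ^ 4 = -(W.b₂ * x.num ^ 3 * x.den + 3 * W.b₄ * x.num ^ 2 * (x.den : ℤ) ^ 2
          + 3 * W.b₆ * x.num * (x.den : ℤ) ^ 3 + W.b₈ * (x.den : ℤ) ^ 4) := by
        linear_combination hint
      rw [this, dvd_neg]
      refine dvd_add (dvd_add (dvd_add ?_ ?_) ?_) ?_
      · exact Dvd.dvd.mul_left hdl _
      · exact Dvd.dvd.mul_left (dvd_pow hdl two_ne_zero) _
      · exact Dvd.dvd.mul_left (dvd_pow hdl three_ne_zero) _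
      · exact Dvd.dvd.mul_left (dvd_pow hdl four_ne_zero) _
    have hlp : Prime (l : ℤ) := Nat.prime_iff_prime_int.mp hl
    have h2 : (l : ℤ) ∣ x.num := by
      rcases hlp.dvd_or_dvd h1 with h | h
      · exfalso
        have : l ∣ 3 := by exact_mod_cast h
        exact hl3 ((Nat.prime_dvd_prime_iff_eq hl Nat.prime_three).mp this)
      · exact hlp.dvd_of_dvd_pow h
    -- contradiction with coprimality
    have hcop : IsCoprime x.num (x.den : ℤ) := x.isCoprime_num_den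
    have : IsUnit (l : ℤ) := hcop.isUnit_of_dvd' h2 hdl
    exact hlp.not_isUnit this
  -- reduce modulo `l`
  set Wl : WeierstrassCurve (ZMod l) := W.map (Int.castRingHom (ZMod l)) with hWl
  set xb : ZMod l := ((x.num : ℤ) : ZMod l) / ((x.den : ℤ) : ZMod l) with hxb
  have hroot : psi3 Wl xb = 0 := by
    have hb2 : Wl.b₂ = ((W.b₂ : ℤ) : ZMod l) := by
      rw [hWl, WeierstrassCurve.map_b₂]; rfl
    have hb4 : Wl.b₄ = ((W.b₄ : ℤ) : ZMod l) := by
      rw [hWl, WeierstrassCurve.map_b₄]; rfl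
    have hb6 : Wl.b₆ = ((W.b₆ : ℤ) : ZMod l) := by
      rw [hWl, WeierstrassCurve.map_b₆]; rfl
    have hb8 : Wl.b₈ = ((W.b₈ : ℤ) : ZMod l) := by
      rw [hWl, WeierstrassCurve.map_b₈]; rfl
    have hcast := congrArg (fun z : ℤ => (z : ZMod l)) hint
    simp only [Int.cast_add, Int.cast_mul, Int.cast_pow, Int.cast_ofNat, Int.cast_zero] at hcast
    unfold psi3
    rw [hb2, hb4, hb6, hb8, hxb]
    field_simp
    linear_combination hcast
  have hc6l : Wl.c₆ = 0 := by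
    rw [hWl, WeierstrassCurve.map_c₆]
    exact (ZMod.intCast_zmod_eq_zero_iff_dvd _ l).mpr hc6
  have hc4l : Wl.c₄ ≠ 0 := by
    rw [hWl, WeierstrassCurve.map_c₄]
    intro h
    exact hc4 ((ZMod.intCast_zmod_eq_zero_iff_dvd _ l).mp h)
  exact psi3_ne_zero_of_c6_eq_zero Wl (by exact_mod_cast h2l) (by exact_mod_cast h3l) hsq
    hc6l hc4l xb hroot

/-- **Irreducibility criterion.**  An integral Weierstrass curve with nonzero discriminant whose
reduction at a prime `l ∉ {2, 3}` has `c₆ = 0`, `c₄ ≠ 0`, where `3` is a non-square modulo `l`,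
has an irreducible mod-`3` representation. -/
theorem modRepIsIrreducible_three (hΔ : W.Δ ≠ 0) (hl : l.Prime) (hl2 : l ≠ 2) (hl3 : l ≠ 3)
    (hc6 : (l : ℤ) ∣ W.c₆) (hc4 : ¬ (l : ℤ) ∣ W.c₄) (hsq : ¬ IsSquare (3 : ZMod l)) :
    W.ModRepIsIrreducible 3 := by
  by_contra h
  unfold WeierstrassCurve.ModRepIsIrreducible at h
  have hΔq : (W.map (Int.castRingHom ℚ)).Δ ≠ 0 := by
    rw [WeierstrassCurve.map_Δ]
    intro h0
    apply hΔ
    have : ((W.Δ : ℤ) : ℚ) = 0 := h0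
    exact_mod_cast this
  obtain ⟨x, -, hx⟩ := Galois.rational_root_of_not_irreducible_three
    (W.map (Int.castRingHom ℚ)) hΔq h
  refine psi3_map_rat_ne_zero W hl hl2 hl3 hc6 hc4 hsq x ?_
  rw [psi3_eq, hx, sub_self]

end Rat

end Fermat.Agent.S52.C42.Psi3J1728
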