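/-
S52 (3-5 switch), brick (C), Klein side -- helper42.

Klein's icosahedral forms `f, H, T` (with `T² + H³ = 1728 f⁵`) and the explicit zero `(i : 1)` of
`T`:  `T(i,1) = 0`,  `H(i,1) = 492 - 456 i ≠ 0`.

For a base point `p₀ = (u₀,v₀)` with `f(p₀) ≠ 0` and `q₀ = (f_v(p₀), -f_u(p₀))`, the parameter
`tStar = (i v₀ - u₀) / (f_v(p₀) + i f_u(p₀))` satisfies `p₀ + tStar q₀ = V • (i,1)` with `V ≠ 0`,
hence `T(p₀ + tStar q₀) = 0` and `H(p₀ + tStar q₀) ≠ 0`: the member of the Rubin-Silverberg family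
at `tStar` has `c₆ = 0`, `c₄ ≠ 0` (it is `y² = x³ + A x`).
-/
import Mathlib

set_option autoImplicit false

namespace Fermat.Agent.S52.C42.KleinI

section ring

variable {K : Type*} [CommRing K]

/-- Klein's form `f = u v (u¹⁰ + 11 u⁵ v⁵ - v¹⁰)`. -/
def kF (u v : K) : K := u * v * (u ^ 10 + 11 * u ^ 5 * v ^ 5 - v ^ 10)

/-- Klein's form `H` of degree `20`. -/
def kH (u v : K) : K :=
  -(u ^ 20 + v ^ 20) + 228 * (u ^ 15 * v ^ 5 - u ^ 5 * v ^ 15) - 494 * u ^ 10 * v ^ 10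

/-- Klein's form `T` of degree `30`. -/
def kT (u v : K) : K :=
  u ^ 30 + v ^ 30 + 522 * (u ^ 25 * v ^ 5 - u ^ 5 * v ^ 25)
    - 10005 * (u ^ 20 * v ^ 10 + u ^ 10 * v ^ 20)

/-- `∂f/∂u`. -/
def kFu (u v : K) : K := 11 * u ^ 10 * v + 66 * u ^ 5 * v ^ 6 - v ^ 11

/-- `∂f/∂v`. -/
def kFv (u v : K) : K := u ^ 11 + 66 * u ^ 6 * v ^ 5 - 11 * u * v ^ 10

theorem klein_syzygy (u v : K) : kT u v ^ 2 + kH u v ^ 3 = 1728 * kF u v ^ 5 := by
  unfold kT kH kF; ring

theorem euler (u v : K) : u * kFu u v + v * kFv u v = 12 * kF u v := by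
  unfold kFu kFv kF; ring

theorem kF_smul (c u v : K) : kF (c * u) (c * v) = c ^ 12 * kF u v := by
  unfold kF; ring

theorem kH_smul (c u v : K) : kH (c * u) (c * v) = c ^ 20 * kH u v := by
  unfold kH; ring

theorem kT_smul (c u v : K) : kT (c * u) (c * v) = c ^ 30 * kT u v := by
  unfold kT; ring

theorem kFu_smul (c u v : K) : kFu (c * u) (c * v) = c ^ 11 * kFu u v := by
  unfold kFu; ring

theorem kFv_smul (c u v : K) : kFv (c * u) (c * v) = c ^ 11 * kFv u v := by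
  unfold kFv; ring

/-- `T(i,1) = 0`. -/
theorem kT_I {i : K} (hi : i ^ 2 = -1) : kT i 1 = 0 := by
  unfold kT
  have h4 : i ^ 4 = 1 := by
    have : i ^ 4 = (i ^ 2) ^ 2 := by ring
    rw [this, hi]; ring
  have e5 : i ^ 5 = i := by
    have : i ^ 5 = i ^ 4 * i := by ring
    rw [this, h4, one_mul]
  have e10 : i ^ 10 = -1 := by
    have : i ^ 10 = (i ^ 4) ^ 2 * i ^ 2 := by ring
    rw [this, h4, hi]; ring
  have e20 : i ^ 20 = 1 := by
    have : i ^ 20 = (i ^ 4) ^ 5 := by ring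
    rw [this, h4]; ring
  have e25 : i ^ 25 = i := by
    have : i ^ 25 = (i ^ 4) ^ 6 * i := by ring
    rw [this, h4]; ring
  have e30 : i ^ 30 = -1 := by
    have : i ^ 30 = (i ^ 4) ^ 7 * i ^ 2 := by ring
    rw [this, h4, hi]; ring
  rw [e5, e10, e20, e25, e30]; ring

/-- `H(i,1) = 492 - 456 i`. -/
theorem kH_I {i : K} (hi : i ^ 2 = -1) : kH i 1 = 492 - 456 * i := by
  unfold kH
  have h4 : i ^ 4 = 1 := by
    have : i ^ 4 = (i ^ 2) ^ 2 := by ring
    rw [this, hi]; ring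
  have e5 : i ^ 5 = i := by
    have : i ^ 5 = i ^ 4 * i := by ring
    rw [this, h4, one_mul]
  have e10 : i ^ 10 = -1 := by
    have : i ^ 10 = (i ^ 4) ^ 2 * i ^ 2 := by ring
    rw [this, h4, hi]; ring
  have e15 : i ^ 15 = -i := by
    have : i ^ 15 = (i ^ 4) ^ 3 * i ^ 2 * i := by ring
    rw [this, h4, hi]; ring
  have e20 : i ^ 20 = 1 := by
    have : i ^ 20 = (i ^ 4) ^ 5 := by ring
    rw [this, h4]; ring
  rw [e5, e10, e15, e20]; ring

/-- `f(i,1) = -11 - 2 i`. -/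
theorem kF_I {i : K} (hi : i ^ 2 = -1) : kF i 1 = -11 - 2 * i := by
  unfold kF
  have h4 : i ^ 4 = 1 := by
    have : i ^ 4 = (i ^ 2) ^ 2 := by ring
    rw [this, hi]; ring
  have e5 : i ^ 5 = i := by
    have : i ^ 5 = i ^ 4 * i := by ring
    rw [this, h4, one_mul]
  have e10 : i ^ 10 = -1 := by
    have : i ^ 10 = (i ^ 4) ^ 2 * i ^ 2 := by ring
    rw [this, h4, hi]; ring
  rw [e5, e10]
  linear_combination 11 * hi

/-- On the line `u = i v` the form `T` vanishes. -/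
theorem kT_eq_zero_of_eq_I_mul {i u v : K} (hi : i ^ 2 = -1) (h : u = i * v) : kT u v = 0 := by
  have := kT_smul v i 1
  rw [kT_I hi, mul_zero, mul_one] at this
  rw [h, mul_comm i v]; exact this

/-- On the line `u = i v` the form `H` is `v²⁰ (492 - 456 i)`. -/
theorem kH_of_eq_I_mul {i u v : K} (hi : i ^ 2 = -1) (h : u = i * v) :
    kH u v = v ^ 20 * (492 - 456 * i) := by
  have := kH_smul v i 1
  rw [kH_I hi, mul_one] at this
  rw [h, mul_comm i v]; exact this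

end ring

section field

variable {K : Type*} [Field K]

/-- `492 - 456 i ≠ 0` in characteristic zero (its norm is `2⁴ 3² 5⁵`). -/
theorem kH_I_ne_zero [CharZero K] {i : K} (hi : i ^ 2 = -1) : (492 - 456 * i : K) ≠ 0 := by
  intro h
  have h1 : (492 - 456 * i) * (492 + 456 * i) = 450000 := by
    linear_combination (-207936 : K) * hi
  rw [h, zero_mul] at h1
  norm_num at h1

/-- The parameter of the `j = 1728` member: `tStar = (i v₀ - u₀) / (f_v(p₀) + i f_u(p₀))`. -/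
noncomputable def tStar (i u0 v0 : K) : K := (i * v0 - u0) / (kFv u0 v0 + i * kFu u0 v0)

/-- For one of the two square roots of `-1` the denominator of `tStar` does not vanish. -/
theorem den_ne_zero_or [CharZero K] {i u0 v0 : K} (hi : i ^ 2 = -1) (hF : kF u0 v0 ≠ 0) :
    kFv u0 v0 + i * kFu u0 v0 ≠ 0 ∨ kFv u0 v0 + (-i) * kFu u0 v0 ≠ 0 := by
  by_contra hcon
  rw [not_or, not_not, not_not] at hcon
  obtain ⟨h1, h2⟩ := hcon
  have hi0 : i ≠ 0 := by
    intro h0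
    rw [h0] at hi
    norm_num at hi
  have hv : kFv u0 v0 = 0 := by
    have : 2 * kFv u0 v0 = 0 := by linear_combination h1 + h2
    rcases mul_eq_zero.mp this with h | h
    · norm_num at h
    · exact h
  have hu : kFu u0 v0 = 0 := by
    have : 2 * i * kFu u0 v0 = 0 := by linear_combination h1 - h2
    rcases mul_eq_zero.mp this with h | h
    · rcases mul_eq_zero.mp h with h | h
      · norm_num at h
      · exact absurd h hi0
    · exact h
  have := euler u0 v0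
  rw [hu, hv, mul_zero, mul_zero, add_zero] at this
  rcases mul_eq_zero.mp this.symm with h | h
  · norm_num at h
  · exact hF h

/-- `p₀ + tStar q₀` lies on the line `u = i v`. -/
theorem line_at_tStar {i u0 v0 : K} (hd : kFv u0 v0 + i * kFu u0 v0 ≠ 0) :
    u0 + tStar i u0 v0 * kFv u0 v0 = i * (v0 - tStar i u0 v0 * kFu u0 v0) := by
  unfold tStar
  field_simp
  ring

/-- the second coordinate of `p₀ + tStar q₀` is nonzero. -/
theorem snd_at_tStar_ne_zero [CharZero K] {i u0 v0 : K}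
    (hd : kFv u0 v0 + i * kFu u0 v0 ≠ 0) (hF : kF u0 v0 ≠ 0) :
    v0 - tStar i u0 v0 * kFu u0 v0 ≠ 0 := by
  intro hV
  have hU := line_at_tStar hd
  rw [hV, mul_zero] at hU
  have h12 : 12 * kF u0 v0 = 0 := by
    rw [← euler u0 v0]
    have e1 : u0 = -(tStar i u0 v0 * kFv u0 v0) := by linear_combination hU
    have e2 : v0 = tStar i u0 v0 * kFu u0 v0 := by linear_combination hV
    calc u0 * kFu u0 v0 + v0 * kFv u0 v0
        = -(tStar i u0 v0 * kFv u0 v0) * kFu u0 v0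
            + (tStar i u0 v0 * kFu u0 v0) * kFv u0 v0 := by rw [← e1, ← e2]
      _ = 0 := by ring
  rcases mul_eq_zero.mp h12 with h | h
  · norm_num at h
  · exact hF h

/-- **The member at `tStar` has `c₆ = 0`.** -/
theorem kT_at_tStar {i u0 v0 : K} (hi : i ^ 2 = -1) (hd : kFv u0 v0 + i * kFu u0 v0 ≠ 0) :
    kT (u0 + tStar i u0 v0 * kFv u0 v0) (v0 - tStar i u0 v0 * kFu u0 v0) = 0 :=
  kT_eq_zero_of_eq_I_mul hi (line_at_tStar hd)

/-- **The member at `tStar` has `c₄ ≠ 0`.** -/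
theorem kH_at_tStar_ne_zero [CharZero K] {i u0 v0 : K} (hi : i ^ 2 = -1)
    (hd : kFv u0 v0 + i * kFu u0 v0 ≠ 0) (hF : kF u0 v0 ≠ 0) :
    kH (u0 + tStar i u0 v0 * kFv u0 v0) (v0 - tStar i u0 v0 * kFu u0 v0) ≠ 0 := by
  rw [kH_of_eq_I_mul hi (line_at_tStar hd)]
  exact mul_ne_zero (pow_ne_zero _ (snd_at_tStar_ne_zero hd hF)) (kH_I_ne_zero hi)

/-- Existence form: for a base point off the cusps there is a square root `i` of `-1` (one of the
two) such that the member of the family at `tStar i` has `T = 0` and `H ≠ 0`. -/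
theorem exists_I_member [CharZero K] {i0 u0 v0 : K} (hi0 : i0 ^ 2 = -1) (hF : kF u0 v0 ≠ 0) :
    ∃ i : K, i ^ 2 = -1 ∧ (i = i0 ∨ i = -i0) ∧ kFv u0 v0 + i * kFu u0 v0 ≠ 0 ∧
      kT (u0 + tStar i u0 v0 * kFv u0 v0) (v0 - tStar i u0 v0 * kFu u0 v0) = 0 ∧
      kH (u0 + tStar i u0 v0 * kFv u0 v0) (v0 - tStar i u0 v0 * kFu u0 v0) ≠ 0 := by
  rcases den_ne_zero_or hi0 hF with hd | hd
  · exact ⟨i0, hi0, Or.inl rfl, hd, kT_at_tStar hi0 hd, kH_at_tStar_ne_zero hi0 hd hF⟩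
  · have hi' : (-i0) ^ 2 = -1 := by rw [neg_sq]; exact hi0
    exact ⟨-i0, hi', Or.inr rfl, hd, kT_at_tStar hi' hd, kH_at_tStar_ne_zero hi' hd hF⟩

end field

end Fermat.Agent.S52.C42.KleinI
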