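/-
S52 (3-5 switch), brick (C), Klein side -- helper42.

"An automorphism fixing the 5-torsion, `ζ₅` and `i` fixes `tStar`."

Let `kX10` be the (rational) degree-10 form giving the `x`-coordinate of the 5-torsion section
`P_(1,0)` of the Klein family `E_p : y² = x³ + 27 H(p) x + 54 T(p)`.  Since `H, T` are invariant
under `(u,v) ↦ (ζ u, v)` and `(u,v) ↦ (v,-u)`, the ten numbers `kX10 (ζ^b u₀) v₀`,
`kX10 v₀ (-(ζ^b u₀))` (`b < 5`) are `x`-coordinates of 5-torsion points of `E_{p₀}`.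
Two explicit identities

  `∑_b ζ^b X10(ζ^b u, v) = 900 u⁴ v⁶`,
  `2 ∑_b ζ^(2b) X10(ζ^b u, v) - ∑_b ζ^(2b) X10(v, -ζ^b u) = 900 u³ v⁷`

show that a ring endomorphism `σ` fixing `ζ` and these ten numbers satisfies
`σ p₀ = lam • p₀` with `lam¹⁰ = 1`; if moreover `σ i = i` then `σ tStar = tStar`.
-/
import Mathlib
import Fermat.Agent.S52.C42.KleinI

set_option autoImplicit false

namespace Fermat.Agent.S52.C42.FixTStar42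

open Fermat.Agent.S52.C42.KleinI

section ring

variable {K : Type*} [CommRing K]

/-- The `x`-coordinate form of the 5-torsion section `P_(1,0)` (rational coefficients). -/
def kX10 (u v : K) : K :=
  3 * (u ^ 10 + 12 * u ^ 8 * v ^ 2 - 12 * u ^ 7 * v ^ 3 + 24 * u ^ 6 * v ^ 4 + 30 * u ^ 5 * v ^ 5
    + 60 * u ^ 4 * v ^ 6 + 36 * u ^ 3 * v ^ 7 + 24 * u ^ 2 * v ^ 8 + 12 * u * v ^ 9 + v ^ 10)

/-- The `y`-coordinate form of the 5-torsion section `P_(1,0)`. -/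
def kY10 (u v : K) : K :=
  108 * u * v ^ 2 * (u ^ 12 + u ^ 11 * v + 4 * u ^ 10 * v ^ 2 + 5 * u ^ 8 * v ^ 4
    + 6 * u ^ 7 * v ^ 5 + 21 * u ^ 6 * v ^ 6 + 29 * u ^ 5 * v ^ 7 + 25 * u ^ 4 * v ^ 8
    + 15 * u ^ 3 * v ^ 9 + 9 * u ^ 2 * v ^ 10 + 4 * u * v ^ 11 + v ^ 12)

/-- The section lies on `y² = x³ + 27 H x + 54 T`. -/
theorem kY10_sq (u v : K) :
    kY10 u v ^ 2 = kX10 u v ^ 3 + 27 * kH u v * kX10 u v + 54 * kT u v := by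
  unfold kY10 kX10 kH kT; ring

/-- `H` is invariant under `(u,v) ↦ (ζ u, v)`. -/
theorem kH_zeta {z : K} (hz : z ^ 5 = 1) (u v : K) : kH (z * u) v = kH u v := by
  unfold kH
  have e5 : (z * u) ^ 5 = u ^ 5 := by rw [mul_pow, hz, one_mul]
  have e10 : (z * u) ^ 10 = u ^ 10 := by
    have : (z * u) ^ 10 = ((z * u) ^ 5) ^ 2 := by ring
    rw [this, e5]; ring
  have e15 : (z * u) ^ 15 = u ^ 15 := by
    have : (z * u) ^ 15 = ((z * u) ^ 5) ^ 3 := by ring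
    rw [this, e5]; ring
  have e20 : (z * u) ^ 20 = u ^ 20 := by
    have : (z * u) ^ 20 = ((z * u) ^ 5) ^ 4 := by ring
    rw [this, e5]; ring
  rw [e5, e10, e15, e20]

/-- `T` is invariant under `(u,v) ↦ (ζ u, v)`. -/
theorem kT_zeta {z : K} (hz : z ^ 5 = 1) (u v : K) : kT (z * u) v = kT u v := by
  unfold kT
  have e5 : (z * u) ^ 5 = u ^ 5 := by rw [mul_pow, hz, one_mul]
  have e10 : (z * u) ^ 10 = u ^ 10 := by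
    have : (z * u) ^ 10 = ((z * u) ^ 5) ^ 2 := by ring
    rw [this, e5]; ring
  have e20 : (z * u) ^ 20 = u ^ 20 := by
    have : (z * u) ^ 20 = ((z * u) ^ 5) ^ 4 := by ring
    rw [this, e5]; ring
  have e25 : (z * u) ^ 25 = u ^ 25 := by
    have : (z * u) ^ 25 = ((z * u) ^ 5) ^ 5 := by ring
    rw [this, e5]; ring
  have e30 : (z * u) ^ 30 = u ^ 30 := by
    have : (z * u) ^ 30 = ((z * u) ^ 5) ^ 6 := by ring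
    rw [this, e5]; ring
  rw [e5, e10, e20, e25, e30]

/-- `H` is invariant under `(u,v) ↦ (v,-u)`. -/
theorem kH_swap (u v : K) : kH v (-u) = kH u v := by
  unfold kH; ring

/-- `T` is invariant under `(u,v) ↦ (v,-u)`. -/
theorem kT_swap (u v : K) : kT v (-u) = kT u v := by
  unfold kT; ring

/-- The points `P_(1,b)(p₀) = P_(1,0)(ζ^b u₀, v₀)` lie on `E_{p₀} : y² = x³ + 27 H(p₀) x + 54 T(p₀)`. -/
theorem oncurve_zeta {z : K} (hz : z ^ 5 = 1) (b : ℕ) (u v : K) :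
    kY10 (z ^ b * u) v ^ 2
      = kX10 (z ^ b * u) v ^ 3 + 27 * kH u v * kX10 (z ^ b * u) v + 54 * kT u v := by
  have hzb : (z ^ b) ^ 5 = 1 := by rw [← pow_mul, mul_comm, pow_mul, hz, one_pow]
  rw [kY10_sq, kH_zeta hzb, kT_zeta hzb]

/-- The points `P_(1,0)(v₀, -ζ^b u₀)` lie on `E_{p₀}`. -/
theorem oncurve_swap {z : K} (hz : z ^ 5 = 1) (b : ℕ) (u v : K) :
    kY10 v (-(z ^ b * u)) ^ 2
      = kX10 v (-(z ^ b * u)) ^ 3 + 27 * kH u v * kX10 v (-(z ^ b * u)) + 54 * kT u v := by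
  have hzb : (z ^ b) ^ 5 = 1 := by rw [← pow_mul, mul_comm, pow_mul, hz, one_pow]
  rw [kY10_sq, kH_swap, kT_swap, kH_zeta hzb, kT_zeta hzb]

/-- First extraction identity: `∑_b ζ^b X10(ζ^b u, v) = 900 u⁴ v⁶`. -/
theorem sum_kX10_first {z : K} (hz : 1 + z + z ^ 2 + z ^ 3 + z ^ 4 = 0) (u v : K) :
    ∑ b ∈ Finset.range 5, z ^ b * kX10 (z ^ b * u) v = 900 * u ^ 4 * v ^ 6 := by
  simp only [Finset.sum_range_succ, Finset.sum_range_zero]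
  unfold kX10
  linear_combination (3*z^40*u^10 + (-3)*z^39*u^10 + 3*z^35*u^10 + (-3)*z^34*u^10 + 36*z^32*u^8*v^2 + (-36)*z^31*u^8*v^2 + 3*z^30*u^10 + (-3)*z^28*u^10 + (-36)*z^28*u^7*v^3 + 36*z^27*u^8*v^2 + 36*z^27*u^7*v^3 + (-36)*z^26*u^8*v^2 + 3*z^25*u^10 + 72*z^24*u^6*v^4 + (-3)*z^23*u^10 + 36*z^23*u^8*v^2 + (-36)*z^23*u^7*v^3 + (-72)*z^23*u^6*v^4 + 36*z^22*u^7*v^3 + (-36)*z^21*u^8*v^2 + 3*z^20*u^10 + (-36)*z^20*u^7*v^3 + 90*z^20*u^5*v^5 + 36*z^19*u^7*v^3 + 72*z^19*u^6*v^4 + (-90)*z^19*u^5*v^5 + 36*z^18*u^8*v^2 + (-36)*z^18*u^7*v^3 + (-72)*z^18*u^6*v^4 + (-3)*z^17*u^10 + 36*z^17*u^7*v^3 + 72*z^17*u^6*v^4 + (-36)*z^16*u^8*v^2 + (-72)*z^16*u^6*v^4 + 180*z^16*u^4*v^6 + 3*z^15*u^10 + (-36)*z^15*u^7*v^3 + 90*z^15*u^5*v^5 + (-180)*z^15*u^4*v^6 + 36*z^14*u^8*v^2 + 36*z^14*u^7*v^3 + 72*z^14*u^6*v^4 + (-36)*z^13*u^7*v^3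 + (-72)*z^13*u^6*v^4 + (-90)*z^13*u^5*v^5 + (-3)*z^12*u^10 + 72*z^12*u^6*v^4 + 108*z^12*u^3*v^7 + (-36)*z^11*u^8*v^2 + 36*z^11*u^7*v^3 + (-72)*z^11*u^6*v^4 + 360*z^11*u^4*v^6 + (-108)*z^11*u^3*v^7 + 3*z^10*u^10 + (-36)*z^10*u^7*v^3 + 72*z^10*u^6*v^4 + 90*z^10*u^5*v^5 + (-360)*z^10*u^4*v^6 + 36*z^9*u^8*v^2 + 36*z^9*u^7*v^3 + (-36)*z^8*u^7*v^3 + (-72)*z^8*u^6*v^4 + 108*z^8*u^3*v^7 + 72*z^8*u^2*v^8 + 72*z^7*u^6*v^4 + (-90)*z^7*u^5*v^5 + (-72)*z^7*u^2*v^8 + (-3)*z^6*u^10 + (-36)*z^6*u^8*v^2 + 36*z^6*u^7*v^3 + (-72)*z^6*u^6*v^4 + 540*z^6*u^4*v^6 + (-108)*z^6*u^3*v^7 + 3*z^5*u^10 + 36*z^5*u^8*v^2 + (-36)*z^5*u^7*v^3 + 72*z^5*u^6*v^4 + 90*z^5*u^5*v^5 + (-540)*z^5*u^4*v^6 + 72*z^5*u^2*v^8 + 108*z^4*u^3*v^7 + (-72)*z^4*u^2*v^8 + 36*z^4*u*v^9 + 72*z^3*u^2*v^8 + (-36)*z^3*u*v^9 + 36*z^2*u*v^9 + (-3)*z*u^10 + (-36)*z*u^8*v^2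 + 36*z*u^7*v^3 + (-72)*z*u^6*v^4 + (-90)*z*u^5*v^5 + 720*z*u^4*v^6 + (-108)*z*u^3*v^7 + (-72)*z*u^2*v^8 + (-36)*z*u*v^9 + 3*u^10 + 36*u^8*v^2 + (-36)*u^7*v^3 + 72*u^6*v^4 + 90*u^5*v^5 + (-720)*u^4*v^6 + 108*u^3*v^7 + 72*u^2*v^8 + 36*u*v^9 + 3*v^10) * hz

/-- Second extraction identity:
`2 ∑_b ζ^(2b) X10(ζ^b u, v) - ∑_b ζ^(2b) X10(v, -ζ^b u) = 900 u³ v⁷`. -/
theorem sum_kX10_second {z : K} (hz : 1 + z + z ^ 2 + z ^ 3 + z ^ 4 = 0) (u v : K) :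
    2 * ∑ b ∈ Finset.range 5, z ^ (2 * b) * kX10 (z ^ b * u) v
      - ∑ b ∈ Finset.range 5, z ^ (2 * b) * kX10 v (-(z ^ b * u)) = 900 * u ^ 3 * v ^ 7 := by
  simp only [Finset.sum_range_succ, Finset.sum_range_zero]
  unfold kX10
  linear_combination (3*z^44*u^10 + (-3)*z^43*u^10 + 36*z^40*u^9*v + 3*z^39*u^10 + (-36)*z^39*u^9*v + (-3)*z^38*u^10 + 36*z^35*u^9*v + 3*z^34*u^10 + (-36)*z^34*u^9*v + (-3)*z^33*u^10 + 3*z^32*u^10 + 36*z^32*u^7*v^3 + (-3)*z^31*u^10 + (-36)*z^31*u^7*v^3 + 36*z^30*u^9*v + 3*z^29*u^10 + (-3)*z^28*u^10 + (-36)*z^28*u^9*v + (-36)*z^28*u^6*v^4 + 3*z^27*u^10 + 36*z^27*u^7*v^3 + 36*z^27*u^6*v^4 + (-3)*z^26*u^10 + (-36)*z^26*u^7*v^3 + 36*z^25*u^9*v + 3*z^24*u^10 + 270*z^24*u^5*v^5 + (-3)*z^23*u^10 + (-36)*z^23*u^9*v + 36*z^23*u^7*v^3 + (-36)*z^23*u^6*v^4 + (-270)*z^23*u^5*v^5 + 3*z^22*u^10 +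 36*z^22*u^6*v^4 + (-3)*z^21*u^10 + (-36)*z^21*u^7*v^3 + 3*z^20*u^10 + 36*z^20*u^9*v + (-36)*z^20*u^6*v^4 + 288*z^20*u^4*v^6 + 36*z^19*u^6*v^4 + 270*z^19*u^5*v^5 + (-288)*z^19*u^4*v^6 + (-3)*z^18*u^10 + 36*z^18*u^7*v^3 + (-36)*z^18*u^6*v^4 + (-270)*z^18*u^5*v^5 + 3*z^17*u^10 + (-36)*z^17*u^9*v + 36*z^17*u^6*v^4 + 270*z^17*u^5*v^5 + (-3)*z^16*u^10 + (-36)*z^16*u^7*v^3 + (-270)*z^16*u^5*v^5 + 180*z^16*u^3*v^7 + 3*z^15*u^10 + 36*z^15*u^9*v + (-36)*z^15*u^6*v^4 + 288*z^15*u^4*v^6 + (-180)*z^15*u^3*v^7 + 36*z^14*u^7*v^3 + 36*z^14*u^6*v^4 + 270*z^14*u^5*v^5 + (-3)*z^13*u^10 + (-36)*z^13*u^6*v^4 + (-270)*z^13*u^5*v^5 + (-288)*z^13*u^4*v^6 + 3*z^12*u^10 + (-36)*z^12*u^9*v + 270*z^12*u^5*v^5 + 108*z^12*u^2*v^8 + (-3)*z^11*u^10 + (-36)*z^11*u^7*v^3 + 36*z^11*u^6*v^4 + (-270)*z^11*u^5*v^5 + 360*z^11*u^3*v^7 + (-108)*z^11*u^2*v^8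 + 3*z^10*u^10 + 36*z^10*u^9*v + (-36)*z^10*u^6*v^4 + 270*z^10*u^5*v^5 + 288*z^10*u^4*v^6 + (-360)*z^10*u^3*v^7 + 36*z^9*u^7*v^3 + 36*z^9*u^6*v^4 + (-36)*z^8*u^6*v^4 + (-270)*z^8*u^5*v^5 + 108*z^8*u^2*v^8 + 72*z^8*u*v^9 + 270*z^7*u^5*v^5 + (-288)*z^7*u^4*v^6 + (-72)*z^7*u*v^9 + (-3)*z^6*u^10 + (-36)*z^6*u^9*v + (-36)*z^6*u^7*v^3 + 36*z^6*u^6*v^4 + (-270)*z^6*u^5*v^5 + 540*z^6*u^3*v^7 + (-108)*z^6*u^2*v^8 + 3*z^5*u^10 + 36*z^5*u^9*v + 36*z^5*u^7*v^3 + (-36)*z^5*u^6*v^4 + 270*z^5*u^5*v^5 + 288*z^5*u^4*v^6 + (-540)*z^5*u^3*v^7 + 72*z^5*u*v^9 + 108*z^4*u^2*v^8 + (-72)*z^4*u*v^9 + 3*z^4*v^10 + 72*z^3*u*v^9 + (-3)*z^3*v^10 + 3*z^2*v^10 + (-3)*z*u^10 + (-36)*z*u^9*v + (-36)*z*u^7*v^3 + 36*z*u^6*v^4 + (-270)*z*u^5*v^5 + (-288)*z*u^4*v^6 + 720*z*u^3*v^7 + (-108)*z*u^2*v^8 + (-72)*z*u*v^9 + (-3)*z*v^10 + 3*u^10 + 36*u^9*v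 + 36*u^7*v^3 + (-36)*u^6*v^4 + 270*u^5*v^5 + 288*u^4*v^6 + (-720)*u^3*v^7 + 108*u^2*v^8 + 72*u*v^9 + 3*v^10) * hz

end ring

section field

variable {K : Type*} [Field K] [CharZero K]

/-- `σ` commutes with the form `kX10`. -/
theorem map_kX10 (σ : K →+* K) (u v : K) : σ (kX10 u v) = kX10 (σ u) (σ v) := by
  unfold kX10
  simp only [map_mul, map_add, map_sub, map_pow, map_ofNat]

theorem map_kFu (σ : K →+* K) (u v : K) : σ (kFu u v) = kFu (σ u) (σ v) := by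
  unfold kFu
  simp only [map_mul, map_add, map_sub, map_pow, map_ofNat]

theorem map_kFv (σ : K →+* K) (u v : K) : σ (kFv u v) = kFv (σ u) (σ v) := by
  unfold kFv
  simp only [map_mul, map_add, map_sub, map_pow, map_ofNat]

/-- If `σ` fixes `ζ` and the five numbers `X10(ζ^b u₀, v₀)` then it fixes `u₀⁴ v₀⁶`. -/
theorem map_mon46 (σ : K →+* K) {z u0 v0 : K} (hz : 1 + z + z ^ 2 + z ^ 3 + z ^ 4 = 0)
    (hσz : σ z = z)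
    (hX : ∀ b < 5, σ (kX10 (z ^ b * u0) v0) = kX10 (z ^ b * u0) v0) :
    σ (u0 ^ 4 * v0 ^ 6) = u0 ^ 4 * v0 ^ 6 := by
  have h := congrArg σ (sum_kX10_first hz u0 v0)
  rw [map_sum] at h
  have h' : ∑ b ∈ Finset.range 5, σ (z ^ b * kX10 (z ^ b * u0) v0)
      = ∑ b ∈ Finset.range 5, z ^ b * kX10 (z ^ b * u0) v0 := by
    refine Finset.sum_congr rfl fun b hb => ?_
    rw [map_mul, map_pow, hσz, hX b (Finset.mem_range.mp hb)]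
  rw [h', sum_kX10_first hz u0 v0] at h
  have e : σ (900 * u0 ^ 4 * v0 ^ 6) = 900 * σ (u0 ^ 4 * v0 ^ 6) := by
    rw [mul_assoc, map_mul, map_ofNat]
  rw [e] at h
  have h900 : (900 : K) ≠ 0 := by norm_num
  apply mul_left_cancel₀ h900
  rw [← h]; ring

/-- If `σ` fixes `ζ` and the ten numbers `X10(ζ^b u₀, v₀)`, `X10(v₀, -ζ^b u₀)` then it fixes
`u₀³ v₀⁷`. -/
theorem map_mon37 (σ : K →+* K) {z u0 v0 : K} (hz : 1 + z + z ^ 2 + z ^ 3 + z ^ 4 = 0)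
    (hσz : σ z = z)
    (hX : ∀ b < 5, σ (kX10 (z ^ b * u0) v0) = kX10 (z ^ b * u0) v0)
    (hX' : ∀ b < 5, σ (kX10 v0 (-(z ^ b * u0))) = kX10 v0 (-(z ^ b * u0))) :
    σ (u0 ^ 3 * v0 ^ 7) = u0 ^ 3 * v0 ^ 7 := by
  have h := congrArg σ (sum_kX10_second hz u0 v0)
  rw [map_sub, map_mul, map_sum, map_sum, map_ofNat] at h
  have h1 : ∑ b ∈ Finset.range 5, σ (z ^ (2 * b) * kX10 (z ^ b * u0) v0)
      = ∑ b ∈ Finset.range 5, z ^ (2 * b) * kX10 (z ^ b * u0) v0 := by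
    refine Finset.sum_congr rfl fun b hb => ?_
    rw [map_mul, map_pow, hσz, hX b (Finset.mem_range.mp hb)]
  have h2 : ∑ b ∈ Finset.range 5, σ (z ^ (2 * b) * kX10 v0 (-(z ^ b * u0)))
      = ∑ b ∈ Finset.range 5, z ^ (2 * b) * kX10 v0 (-(z ^ b * u0)) := by
    refine Finset.sum_congr rfl fun b hb => ?_
    rw [map_mul, map_pow, hσz, hX' b (Finset.mem_range.mp hb)]
  rw [h1, h2, sum_kX10_second hz u0 v0] at h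
  have e : σ (900 * u0 ^ 3 * v0 ^ 7) = 900 * σ (u0 ^ 3 * v0 ^ 7) := by
    rw [mul_assoc, map_mul, map_ofNat]
  rw [e] at h
  have h900 : (900 : K) ≠ 0 := by norm_num
  apply mul_left_cancel₀ h900
  rw [← h]; ring

/-- **Rigidity of the base point.** A ring endomorphism fixing `ζ₅` and the ten `x`-coordinates
`X10(ζ^b u₀, v₀)`, `X10(v₀, -ζ^b u₀)` multiplies the base point by a tenth root of unity. -/
theorem exists_scalar (σ : K →+* K) {z u0 v0 : K} (hz : 1 + z + z ^ 2 + z ^ 3 + z ^ 4 = 0)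
    (hσz : σ z = z) (hu : u0 ≠ 0) (hv : v0 ≠ 0)
    (hX : ∀ b < 5, σ (kX10 (z ^ b * u0) v0) = kX10 (z ^ b * u0) v0)
    (hX' : ∀ b < 5, σ (kX10 v0 (-(z ^ b * u0))) = kX10 v0 (-(z ^ b * u0))) :
    ∃ lam : K, lam ^ 10 = 1 ∧ σ u0 = lam * u0 ∧ σ v0 = lam * v0 := by
  have h46 := map_mon46 σ hz hσz hX
  have h37 := map_mon37 σ hz hσz hX hX'
  rw [map_mul, map_pow, map_pow] at h46 h37
  have hu' : σ u0 ≠ 0 := fun h => hu ((map_eq_zero σ).mp h)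
  have hv' : σ v0 ≠ 0 := fun h => hv ((map_eq_zero σ).mp h)
  -- `σ u₀ * v₀ = u₀ * σ v₀`
  have hcross : σ u0 * v0 = u0 * σ v0 := by
    have hne : σ u0 ^ 3 * σ v0 ^ 6 * (u0 ^ 3 * v0 ^ 6) ≠ 0 :=
      mul_ne_zero (mul_ne_zero (pow_ne_zero _ hu') (pow_ne_zero _ hv'))
        (mul_ne_zero (pow_ne_zero _ hu) (pow_ne_zero _ hv))
    apply mul_left_cancel₀ hne
    linear_combination (u0 ^ 3 * v0 ^ 7) * h46 - (u0 ^ 4 * v0 ^ 6) * h37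
  refine ⟨σ u0 / u0, ?_, ?_, ?_⟩
  · -- `(σ u₀)¹⁰ = u₀¹⁰`
    have h10 : σ u0 ^ 10 * v0 ^ 6 = u0 ^ 10 * v0 ^ 6 := by
      have e1 : σ u0 ^ 10 * v0 ^ 6 = σ u0 ^ 4 * (σ u0 * v0) ^ 6 := by ring
      rw [e1, hcross]
      linear_combination (u0 ^ 6) * h46
    have h10' : σ u0 ^ 10 = u0 ^ 10 := mul_right_cancel₀ (pow_ne_zero 6 hv) h10
    rw [div_pow, h10', div_self (pow_ne_zero _ hu)]
  · rw [div_mul_cancel₀ _ hu]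
  · rw [div_mul_eq_mul_div, eq_div_iff hu, mul_comm (σ v0) u0]
    exact hcross.symm

/-- **`tStar` is fixed.** If moreover `σ i = i`, then `σ` fixes `tStar i u₀ v₀`. -/
theorem tStar_fixed (σ : K →+* K) {z i u0 v0 : K} (hz : 1 + z + z ^ 2 + z ^ 3 + z ^ 4 = 0)
    (hσz : σ z = z) (hσi : σ i = i) (hu : u0 ≠ 0) (hv : v0 ≠ 0)
    (hX : ∀ b < 5, σ (kX10 (z ^ b * u0) v0) = kX10 (z ^ b * u0) v0)
    (hX' : ∀ b < 5, σ (kX10 v0 (-(z ^ b * u0))) = kX10 v0 (-(z ^ b * u0))) :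
    σ (tStar i u0 v0) = tStar i u0 v0 := by
  obtain ⟨lam, hlam, h1, h2⟩ := exists_scalar σ hz hσz hu hv hX hX'
  have hlam0 : lam ≠ 0 := by
    intro h0
    rw [h0] at hlam
    norm_num at hlam
  unfold tStar
  rw [map_div₀, map_sub, map_add, map_mul, map_mul, hσi, map_kFv, map_kFu, h1, h2,
    kFv_smul, kFu_smul]
  have e11 : lam ^ 11 = lam := by
    have : lam ^ 11 = lam ^ 10 * lam := by ring
    rw [this, hlam, one_mul]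
  rw [e11]
  have e1 : i * (lam * v0) - lam * u0 = lam * (i * v0 - u0) := by ring
  have e2 : lam * kFv u0 v0 + i * (lam * kFu u0 v0) = lam * (kFv u0 v0 + i * kFu u0 v0) := by
    ring
  rw [e1, e2, mul_div_mul_left _ _ hlam0]

end field

end Fermat.Agent.S52.C42.FixTStar42
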