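/-
S52 (3-5 switch), brick (C): ASSEMBLY -- helper42.

Choice of the auxiliary prime `l` and of the residue class `n mod l` such that every member
`E_t` (`t ≡ n mod l`) of the `5`-congruent family has `l ∣ c₆(E_t)`, `l ∤ c₄(E_t)` and `3` a
non-square modulo `l`; by `Psi3J1728` such members have irreducible `3`-torsion.

The three inputs which are produced elsewhere are explicit hypotheses (in the names of
`Fermat.Agent.S52.Klein` = `Defs51`):

* `SigmaZeroStmt W`  : an element `σ₀ ∈ G_ℚ` acting trivially on `W[5](ℚ̄)`, on `μ₅`, on `μ₄` and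
                       sending every square root of `3` to its negative;
* `LinkStmt W`       : an element of `G_ℚ` acting trivially on `W[5](ℚ̄)` fixes `xQ u v` for every
                       base point `(u,v)` with `H(u,v) = -c₄(W)`, `T(u,v) = -c₆(W)`;
* `TwistStmt W P Q`  : `T(p + t q(p)) = P(t)`, `H(p + t q(p)) = Q(t)` for integer polynomials
                       `P, Q`, where `q(p) = (f_v(p), -f_u(p))`.
-/
import Mathlib
import Fermat.Agent.S52.Klein.Defs51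
import Fermat.Agent.S52.Klein.BasePoint80
import Fermat.Agent.S52.C.ChebPrime58
import Fermat.Agent.S52.C42.KleinI
import Fermat.Agent.S52.C42.FixTStar42
import Fermat.Agent.S52.C42.Psi3J1728
import Fermat.Agent.S52.TopWiring84

set_option autoImplicit false

namespace Fermat.Agent.S52.C42.CAssembly42

open Polynomial
open Fermat.Agent.S52.TopWiring84 (Tors)
open Fermat.Agent.S52.Klein (kH kT kfu kfv xQ)

local notation "Qb" => AlgebraicClosure ℚ
local notation "GQ" => (AlgebraicClosure ℚ ≃ₐ[ℚ] AlgebraicClosure ℚ)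

/-- Input (a): the element `σ₀` (produced from inertia at `3`). -/
def SigmaZeroStmt (W : WeierstrassCurve ℤ) : Prop :=
  ∃ σ₀ : GQ, (∀ x : Tors W 5, σ₀ • x = x) ∧ (∀ z : Qb, z ^ 5 = 1 → σ₀ z = z) ∧
    (∀ z : Qb, z ^ 4 = 1 → σ₀ z = z) ∧ (∀ s : Qb, s ^ 2 = 3 → σ₀ s = -s)

/-- Input (b): the transport link between `W[5]` and the explicit `5`-torsion section. -/
def LinkStmt (W : WeierstrassCurve ℤ) : Prop :=
  ∀ σ : GQ, (∀ x : Tors W 5, σ • x = x) → ∀ u v : Qb,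
    kH u v = -((W.c₄ : ℤ) : Qb) → kT u v = -((W.c₆ : ℤ) : Qb) → σ (xQ u v) = xQ u v

/-- Input (c): the Taylor/twist polynomials of the family. -/
def TwistStmt (W : WeierstrassCurve ℤ) (P Q : ℤ[X]) : Prop :=
  ∀ u v t : Qb, kH u v = -((W.c₄ : ℤ) : Qb) → kT u v = -((W.c₆ : ℤ) : Qb) →
    kT (u + t * kfv u v) (v - t * kfu u v) = aeval t P ∧
    kH (u + t * kfv u v) (v - t * kfu u v) = aeval t Q

/-- a primitive fifth root of unity in `ℚ̄` (in the form used by `FixTStar42`). -/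
theorem exists_zeta5 : ∃ z : Qb, 1 + z + z ^ 2 + z ^ 3 + z ^ 4 = 0 := by
  have hdeg : (cyclotomic 5 Qb).degree ≠ 0 := by
    rw [degree_cyclotomic]
    have : Nat.totient 5 = 4 := by
      have := Nat.totient_prime Nat.prime_five
      omega
    rw [this]
    norm_num
  obtain ⟨z, hz⟩ := IsAlgClosed.exists_root (cyclotomic 5 Qb) hdeg
  refine ⟨z, ?_⟩
  have h5 : Fact (Nat.Prime 5) := ⟨Nat.prime_five⟩
  rw [IsRoot.def, cyclotomic_prime, eval_finsetSum] at hz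
  simp only [Finset.sum_range_succ, Finset.sum_range_zero, eval_pow, eval_X] at hz
  linear_combination hz

theorem pow_five_eq_one {K : Type*} [CommRing K] {z : K}
    (hz : 1 + z + z ^ 2 + z ^ 3 + z ^ 4 = 0) : z ^ 5 = 1 := by
  linear_combination (z - 1) * hz

theorem kX10_eq_xQ {K : Type*} [CommRing K] (u v : K) :
    FixTStar42.kX10 u v = xQ u v := by
  unfold FixTStar42.kX10 xQ; ring

/-- **(C), choice of the auxiliary prime.** -/
theorem exists_prime_congr (W : WeierstrassCurve ℤ) (hΔ : W.Δ ≠ 0)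
    (hσ : SigmaZeroStmt W) (hlink : LinkStmt W) {P Q : ℤ[X]} (htw : TwistStmt W P Q)
    (T0 : Finset ℕ) :
    ∃ l : ℕ, l.Prime ∧ l ∉ T0 ∧ ¬ IsSquare (3 : ZMod l) ∧ ∃ n : ℤ, ∀ t : ℤ,
      t ≡ n [ZMOD (l : ℤ)] → (l : ℤ) ∣ P.eval t ∧ ¬ (l : ℤ) ∣ Q.eval t := by
  classical
  -- the base point
  have hD : (-((W.c₄ : ℤ) : Qb)) ^ 3 + (-((W.c₆ : ℤ) : Qb)) ^ 2 ≠ 0 := by
    intro h
    apply hΔ
    have hrel := W.c_relation
    have h1 : ((1728 * W.Δ : ℤ) : Qb) = 0 := by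
      rw [hrel]; push_cast; linear_combination -h
    have h2 : (1728 * W.Δ : ℤ) = 0 := by exact_mod_cast h1
    rcases mul_eq_zero.mp h2 with h3 | h3
    · norm_num at h3
    · exact h3
  obtain ⟨u0, v0, hH, hT, hF⟩ :=
    Fermat.Agent.S52.Klein.BasePoint80.exists_basePoint' (-((W.c₄ : ℤ) : Qb))
      (-((W.c₆ : ℤ) : Qb)) hD
  have hH' : kH u0 v0 = -((W.c₄ : ℤ) : Qb) := hH
  have hT' : kT u0 v0 = -((W.c₆ : ℤ) : Qb) := hT
  have hF' : KleinI.kF u0 v0 ≠ 0 := hF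
  have hu0 : u0 ≠ 0 := by
    intro h; apply hF'; unfold KleinI.kF; rw [h]; ring
  have hv0 : v0 ≠ 0 := by
    intro h; apply hF'; unfold KleinI.kF; rw [h]; ring
  -- roots of unity and the square root of 3
  obtain ⟨z, hz⟩ := exists_zeta5
  have hz5 : z ^ 5 = 1 := pow_five_eq_one hz
  obtain ⟨i0, hi0⟩ := IsAlgClosed.exists_pow_nat_eq (-1 : Qb) (n := 2) (by norm_num)
  obtain ⟨s, hs⟩ := IsAlgClosed.exists_pow_nat_eq (3 : Qb) (n := 2) (by norm_num)
  obtain ⟨i, hi, -, hd, hkT, hkH⟩ := KleinI.exists_I_member hi0 hF'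
  have hi4 : i ^ 4 = 1 := by
    have : i ^ 4 = (i ^ 2) ^ 2 := by ring
    rw [this, hi]; ring
  -- the element `σ₀`
  obtain ⟨σ₀, hfix, hμ5, hμ4, hsq⟩ := hσ
  have hσz : (σ₀ : Qb →+* Qb) z = z := hμ5 z hz5
  have hσi : (σ₀ : Qb →+* Qb) i = i := hμ4 i hi4
  have hzb : ∀ b : ℕ, (z ^ b) ^ 5 = 1 := fun b => by
    rw [← pow_mul, mul_comm, pow_mul, hz5, one_pow]
  have hX : ∀ b < 5, (σ₀ : Qb →+* Qb) (FixTStar42.kX10 (z ^ b * u0) v0)
      = FixTStar42.kX10 (z ^ b * u0) v0 := by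
    intro b _
    rw [kX10_eq_xQ]
    refine hlink σ₀ hfix _ _ ?_ ?_
    · rw [Fermat.Agent.S52.Klein.kH_zeta (hzb b), hH']
    · rw [Fermat.Agent.S52.Klein.kT_zeta (hzb b), hT']
  have hX' : ∀ b < 5, (σ₀ : Qb →+* Qb) (FixTStar42.kX10 v0 (-(z ^ b * u0)))
      = FixTStar42.kX10 v0 (-(z ^ b * u0)) := by
    intro b _
    rw [kX10_eq_xQ]
    refine hlink σ₀ hfix _ _ ?_ ?_
    · have : kH v0 (-(z ^ b * u0)) = kH (z ^ b * u0) v0 := FixTStar42.kH_swap (z ^ b * u0) v0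
      rw [this, Fermat.Agent.S52.Klein.kH_zeta (hzb b), hH']
    · have : kT v0 (-(z ^ b * u0)) = kT (z ^ b * u0) v0 := FixTStar42.kT_swap (z ^ b * u0) v0
      rw [this, Fermat.Agent.S52.Klein.kT_zeta (hzb b), hT']
  have hfixt : σ₀ (KleinI.tStar i u0 v0) = KleinI.tStar i u0 v0 :=
    FixTStar42.tStar_fixed (σ₀ : Qb →+* Qb) hz hσz hσi hu0 hv0 hX hX'
  -- the polynomials
  obtain ⟨hPt, hQt⟩ := htw u0 v0 (KleinI.tStar i u0 v0) hH' hT'
  have hP : aeval (KleinI.tStar i u0 v0) P = 0 := by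
    rw [← hPt]; exact hkT
  have hQ : aeval (KleinI.tStar i u0 v0) Q ≠ 0 := by
    rw [← hQt]; exact hkH
  have hs' : s ^ 2 = ((3 : ℤ) : Qb) := by rw [hs]; norm_num
  obtain ⟨p, hp, hpT, hnsq, n, hn1, hn2⟩ :=
    Fermat.Agent.S52.C.ChebPrime58.exists_prime_int_root P Q hP hQ (d := 3) (by norm_num) hs' σ₀
      hfixt (hsq s hs) T0
  refine ⟨p, hp, hpT, ?_, n, fun t ht => ⟨?_, ?_⟩⟩
  · intro h
    apply hnsq
    have : ((3 : ℤ) : ZMod p) = 3 := by norm_num
    rw [this]; exact h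
  · have h1 : (p : ℤ) ∣ t - n := (Int.modEq_iff_dvd.mp ht.symm)
    have h2 : t - n ∣ P.eval t - P.eval n := Polynomial.sub_dvd_eval_sub t n P
    have := dvd_add (h1.trans h2) hn1
    simpa using this
  · intro h
    apply hn2
    have h1 : (p : ℤ) ∣ t - n := (Int.modEq_iff_dvd.mp ht.symm)
    have h2 : t - n ∣ Q.eval t - Q.eval n := Polynomial.sub_dvd_eval_sub t n Q
    have := dvd_sub h (h1.trans h2)
    simpa using this

/-- **(C), final form.** Outside any finite set of primes there are a prime `l` and a residue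
class `n mod l` such that every integral model `W'` whose invariants are
`c₄(W') = -Q(t)`, `c₆(W') = -P(t)` with `t ≡ n mod l` (and `Δ(W') ≠ 0`) has irreducible
`3`-torsion. -/
theorem exists_irred_congr (W : WeierstrassCurve ℤ) (hΔ : W.Δ ≠ 0)
    (hσ : SigmaZeroStmt W) (hlink : LinkStmt W) {P Q : ℤ[X]} (htw : TwistStmt W P Q)
    (T0 : Finset ℕ) :
    ∃ l : ℕ, l.Prime ∧ l ∉ T0 ∧ ∃ n : ℤ, ∀ t : ℤ, t ≡ n [ZMOD (l : ℤ)] →
      ∀ W' : WeierstrassCurve ℤ, W'.Δ ≠ 0 → W'.c₄ = -Q.eval t → W'.c₆ = -P.eval t →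
        W'.ModRepIsIrreducible 3 := by
  classical
  obtain ⟨l, hl, hlT, h3, n, hn⟩ := exists_prime_congr W hΔ hσ hlink htw (T0 ∪ {2, 3})
  have hl2 : l ≠ 2 := by
    rintro rfl; exact hlT (Finset.mem_union_right _ (by simp))
  have hl3 : l ≠ 3 := by
    rintro rfl; exact hlT (Finset.mem_union_right _ (by simp))
  refine ⟨l, hl, fun h => hlT (Finset.mem_union_left _ h), n, fun t ht W' hΔ' h4 h6 => ?_⟩
  obtain ⟨hP, hQ⟩ := hn t ht
  refine Psi3J1728.modRepIsIrreducible_three W' hΔ' hl hl2 hl3 ?_ ?_ h3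
  · rw [h6]; exact (dvd_neg).mpr hP
  · rw [h4]; exact fun h => hQ ((dvd_neg).mp h)

end Fermat.Agent.S52.C42.CAssembly42
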