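/-
S52 (3-5 switch), brick (C): discharge of the inputs (a) `SigmaZeroStmt` (helper47, `SigmaZero47`)
and (b) `LinkStmt` (helper99, `Link99`) of `CAssembly42`.  Only the Taylor/twist polynomials
`TwistStmt W P Q` remain as a hypothesis.
-/
import Mathlib
import Fermat.Agent.S52.C42.CAssembly42
import Fermat.Agent.S52.C.SigmaZero47
import Fermat.Agent.S52.C.Link99

set_option autoImplicit false

namespace Fermat.Agent.S52.C42.CFinal42

open Polynomial
open Fermat.Agent.ES.Q58.TraceCong20 (RelQbar)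
open Fermat.Agent.S52.C42.CAssembly42

/-- Input (a), from `SigmaZero47`. -/
theorem sigmaZeroStmt (W : WeierstrassCurve ℤ) (hΔ : W.Δ ≠ 0) (hss : W.IsSemistableModel)
    (hrel : RelQbar W) (hirr : W.ModRepIsIrreducible 5) : SigmaZeroStmt W := by
  obtain ⟨σ₀, h1, h2, h3, -, h5⟩ :=
    Fermat.Agent.S52.C.SigmaZero47.exists_sigma0_five W hΔ hss hrel hirr
  exact ⟨σ₀, h1, h2, h3, h5⟩

/-- Input (b), from `Link99`. -/
theorem linkStmt (W : WeierstrassCurve ℤ) (hΔ : W.Δ ≠ 0) : LinkStmt W :=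
  fun σ hfix _ _ hH hT => (Fermat.Agent.S52.C.Link99.coords_fixed hΔ σ hfix hH hT).1

/-- **(C), with only the twist polynomials as input.** -/
theorem exists_irred_congr (W : WeierstrassCurve ℤ) (hΔ : W.Δ ≠ 0) (hss : W.IsSemistableModel)
    (hrel : RelQbar W) (hirr : W.ModRepIsIrreducible 5) {P Q : ℤ[X]} (htw : TwistStmt W P Q)
    (T0 : Finset ℕ) :
    ∃ l : ℕ, l.Prime ∧ l ∉ T0 ∧ ∃ n : ℤ, ∀ t : ℤ, t ≡ n [ZMOD (l : ℤ)] →
      ∀ W' : WeierstrassCurve ℤ, W'.Δ ≠ 0 → W'.c₄ = -Q.eval t → W'.c₆ = -P.eval t →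
        W'.ModRepIsIrreducible 3 :=
  CAssembly42.exists_irred_congr W hΔ (sigmaZeroStmt W hΔ hss hrel hirr) (linkStmt W hΔ) htw T0

end Fermat.Agent.S52.C42.CFinal42
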